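import Fermat.Agent.S58.Cmp.Core
import Fermat.Agent.NEW.SMO

/-!
# S58, chapter CMP, step (III): `a_ℓ(g) = a_ℓ(W)` for almost all `ℓ` implies the same for all `ℓ ∤ M Δ`
-/

set_option autoImplicit false

namespace Fermat.Agent.S58

open WeierstrassCurve WeierstrassCurve.Affine ModularFormClass Polynomial

theorem smoD_intCast {k : Type*} [Field k] (a : ℤ) (ℓ b : ℕ) :
    NEW.smoD ((a : ℤ) : k) (ℓ : k) b = ((S31.dseq a ℓ b : ℤ) : k) := by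
  induction b using Nat.twoStepInduction with
  | zero => simp [NEW.smoD, S31.dseq_zero]
  | one => simp [NEW.smoD, S31.dseq_one]
  | more b ih1 ih2 =>
    rw [NEW.smoD, ih1, ih2, S31.dseq_add_two]
    push_cast
    ring

/-- the residual trace at `ℓ₀` is `a_ℓ₀(W)`. -/
theorem coeff_key (W : WeierstrassCurve ℤ) (hΔ0 : W.Δ ≠ 0) {M : ℕ} (hM : M ≠ 0)
    {g : CuspForm (CongruenceSubgroup.Gamma0 M) 2} (hg : g.IsNormalizedEigenform) (B : Finset ℕ)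
    (h : ∀ ℓ : ℕ, ℓ.Prime → ℓ ∉ B → qCoeff g ℓ = (W.apOfModel ℓ : ℂ))
    (ℓ₀ : ℕ) (hℓ₀ : ℓ₀.Prime) (hℓM : ¬ ℓ₀ ∣ M) (hℓΔ : ¬ (ℓ₀ : ℤ) ∣ W.Δ)
    {p : ℕ} (hp : p.Prime) (hp2 : p ≠ 2) (hpℓ : p ≠ ℓ₀) {k : Type} [Field k] [CharP k p]
    (φ : integralClosure ℤ ℂ →+* k) :
    ∃ a : integralClosure ℤ ℂ, (a : ℂ) = qCoeff g ℓ₀ ∧ φ a = ((W.apOfModel ℓ₀ : ℤ) : k) := by
  classical
  obtain ⟨ρ, hρ, -⟩ := Fermat.Agent.S29.result hg hp φ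
  obtain ⟨L₁, hL₁, h1⟩ := ρ.factorsThroughFiniteLevel
  obtain ⟨L₂, hL₂, h2⟩ := exists_level W hΔ0 (m := p ^ 1) (pow_ne_zero 1 hp.ne_zero)
  have hL : FiniteDimensional ℚ (L₁ ⊔ L₂ : IntermediateField ℚ (AlgebraicClosure ℚ)) :=
    IntermediateField.finiteDimensional_sup L₁ L₂
  obtain ⟨A₀, σ₀, hA₀, hσ₀⟩ := Fermat.Agent.S54.exists_frob ℓ₀ hℓ₀
  obtain ⟨ℓ, hℓ, hℓS, A, hA, σ, hσ, b, hb⟩ :=
    Fermat.Agent.S29.frobenius_density_lite (L₁ ⊔ L₂)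
      (B ∪ (M * p).primeFactors ∪ W.Δ.natAbs.primeFactors) σ₀
  have hℓB : ℓ ∉ B := fun h => hℓS (by simp [h])
  have hMp : M * p ≠ 0 := mul_ne_zero hM hp.ne_zero
  have hℓd : ¬ ℓ ∣ M * p := fun hd => hℓS (by
    simp only [Finset.mem_union, Nat.mem_primeFactors]
    exact Or.inl (Or.inr ⟨hℓ, hd, hMp⟩))
  have hℓΔ' : ¬ (ℓ : ℤ) ∣ W.Δ := by
    intro h
    apply hℓS
    simp only [Finset.mem_union, Nat.mem_primeFactors]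
    refine Or.inr ⟨hℓ, Int.natCast_dvd.mp h, by simpa using hΔ0⟩
  have hℓM' : ¬ ℓ ∣ M := fun hd => hℓd (hd.mul_right p)
  have hℓp : ¬ ℓ ∣ p := fun hd => hℓd (hd.mul_left M)
  have hℓp' : ℓ ≠ p := fun h => hℓp (h ▸ dvd_rfl)
  have hℓk : (ℓ : k) ≠ 0 := by
    rw [Ne, CharP.cast_eq_zero_iff k p ℓ]
    intro hd
    rw [(Nat.prime_dvd_prime_iff_eq hp hℓ).mp hd] at hℓp
    exact hℓp dvd_rfl
  have hℓ₀k : (ℓ₀ : k) ≠ 0 := by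
    rw [Ne, CharP.cast_eq_zero_iff k p ℓ₀]
    intro hd
    exact hpℓ ((Nat.prime_dvd_prime_iff_eq hp hℓ₀).mp hd)
  have hfix : ∀ x ∈ (L₁ ⊔ L₂ : IntermediateField ℚ (AlgebraicClosure ℚ)),
      (σ₀⁻¹ * σ ^ b) x = x := by
    intro x hx
    rw [AlgEquiv.mul_apply, hb x hx]
    exact σ₀.symm_apply_apply x
  have hfix2 : ∀ x ∈ L₂, (σ₀⁻¹ * σ ^ b) x = x :=
    fun x hx => hfix x ((le_sup_right : L₂ ≤ L₁ ⊔ L₂) hx)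
  have e1 : ρ.ρ σ₀ = ρ.ρ σ ^ b := by
    have h3 := h1 (σ₀⁻¹ * σ ^ b) (fun x hx => hfix x ((le_sup_left : L₁ ≤ L₁ ⊔ L₂) hx))
    rw [← map_pow]
    calc ρ.ρ σ₀ = ρ.ρ σ₀ * ρ.ρ (σ₀⁻¹ * σ ^ b) := by rw [h3, mul_one]
      _ = ρ.ρ (σ ^ b) := by rw [← map_mul, mul_inv_cancel_left]
  obtain ⟨c, hc, hcp⟩ := hρ ℓ hℓ hℓM' hℓk A hA σ hσ
  have hcW : c = ((W.apOfModel ℓ : ℤ) : integralClosure ℤ ℂ) := Subtype.ext (by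
    rw [hc, h ℓ hℓ hℓB]
    simp)
  obtain ⟨a, ha, hap⟩ := hρ ℓ₀ hℓ₀ hℓM hℓ₀k A₀ hA₀ σ₀ hσ₀
  refine ⟨a, ha, ?_⟩
  have hnd : ¬ ℓ₀ ∣ p ^ 1 := by
    rw [pow_one]
    intro hd
    exact hpℓ ((Nat.prime_dvd_prime_iff_eq hℓ₀ hp).mp hd).symm
  have hsb : σ ^ b = σ₀ * (σ₀⁻¹ * σ ^ b) := by rw [mul_inv_cancel_left]
  obtain ⟨c1, -⟩ := core W hΔ0 hp hp2 1 σ₀ (W.apOfModel ℓ₀) ℓ₀
    (fun Q hQ => frob_rel W hℓ₀ hℓΔ A₀ hA₀ σ₀ hσ₀ ((hp.odd_of_ne_two hp2).pow) hnd Q hQ)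
    (fun ζ hζ => Fermat.Agent.S31.frob_apply_root hℓ₀ hA₀ hσ₀ hnd hζ)
    hℓ hℓΔ' hℓp' A hA σ hσ b
    (fun Q hQ => by rw [hsb, mul_smul, (h2 _ hfix2).1 Q hQ])
    (fun ζ hζ => by rw [hsb, AlgEquiv.mul_apply, (h2 _ hfix2).2 ζ hζ])
  rw [← NEW.smo_trace_of_charpoly _ hap, e1, NEW.smo_trace_pow _ ρ.finrank_eq hcp, hcW,
    map_intCast, smoD_intCast]
  rw [← sub_eq_zero, ← Int.cast_sub, CharP.intCast_eq_zero_iff k p]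
  simpa using c1

/-- (III) twin of `NEW.smo_lite`, the second eigenform being replaced by the torsion of `E`. -/
theorem coeff_eq (W : WeierstrassCurve ℤ) (hΔ0 : W.Δ ≠ 0) {M : ℕ} (hM : M ≠ 0)
    {g : CuspForm (CongruenceSubgroup.Gamma0 M) 2} (hg : g.IsNormalizedEigenform) (B : Finset ℕ)
    (h : ∀ ℓ : ℕ, ℓ.Prime → ℓ ∉ B → qCoeff g ℓ = (W.apOfModel ℓ : ℂ))
    (ℓ₀ : ℕ) (hℓ₀ : ℓ₀.Prime) (hℓM : ¬ ℓ₀ ∣ M) (hℓΔ : ¬ (ℓ₀ : ℤ) ∣ W.Δ) :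
    qCoeff g ℓ₀ = (W.apOfModel ℓ₀ : ℂ) := by
  have hchar : ∀ (p : ℕ) (𝔪 : Ideal (integralClosure ℤ ℂ)), p.Prime → 𝔪.IsMaximal →
      (p : integralClosure ℤ ℂ) ∈ 𝔪 → CharP (integralClosure ℤ ℂ ⧸ 𝔪) p := by
    intro p 𝔪 hp h𝔪 hpm
    have h0 : ((p : ℕ) : integralClosure ℤ ℂ ⧸ 𝔪) = 0 := by
      have := Ideal.Quotient.eq_zero_iff_mem.mpr hpm
      rwa [map_natCast] at this
    have hnt : Nontrivial (integralClosure ℤ ℂ ⧸ 𝔪) := Ideal.Quotient.nontrivial_iff.mpr h𝔪.ne_top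
    have h1 := ringChar.dvd h0
    rcases (Nat.dvd_prime hp).mp h1 with h2 | h2
    · exact absurd h2 CharP.ringChar_ne_one
    · rw [← h2]
      exact ringChar.charP _
  have hodd : ∀ (p : ℕ) (𝔪 : Ideal (integralClosure ℤ ℂ)) (δ : integralClosure ℤ ℂ),
      (p : integralClosure ℤ ℂ) ∈ 𝔪 → 2 * δ ∉ 𝔪 → p ≠ 2 ∧ δ ∉ 𝔪 := by
    intro p 𝔪 δ hpm hδ
    refine ⟨?_, fun hm => hδ (𝔪.mul_mem_left _ hm)⟩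
    rintro rfl
    apply hδ
    apply 𝔪.mul_mem_right
    exact_mod_cast hpm
  -- integrality of the coefficient
  obtain ⟨p, 𝔪, hp, hpℓ, h𝔪, hpm, h2m⟩ := NEW.smo_exists_max (2 * 1) (by norm_num) ℓ₀
  let _ : Field (integralClosure ℤ ℂ ⧸ 𝔪) := Ideal.Quotient.field 𝔪
  have := hchar p 𝔪 hp h𝔪 hpm
  obtain ⟨a, ha, -⟩ := coeff_key W hΔ0 hM hg B h ℓ₀ hℓ₀ hℓM hℓΔ hp (hodd p 𝔪 1 hpm h2m).1 hpℓ
    (Ideal.Quotient.mk 𝔪)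
  by_contra hne
  have hδ : a - ((W.apOfModel ℓ₀ : ℤ) : integralClosure ℤ ℂ) ≠ 0 := by
    intro h0
    apply hne
    rw [← ha, sub_eq_zero.mp h0]
    simp
  obtain ⟨p', 𝔪', hp', hpℓ', h𝔪', hpm', hδm⟩ := NEW.smo_exists_max
    (2 * (a - ((W.apOfModel ℓ₀ : ℤ) : integralClosure ℤ ℂ))) (mul_ne_zero two_ne_zero hδ) ℓ₀
  let _ : Field (integralClosure ℤ ℂ ⧸ 𝔪') := Ideal.Quotient.field 𝔪'
  have := hchar p' 𝔪' hp' h𝔪' hpm'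
  obtain ⟨hp2', hδm'⟩ := hodd p' 𝔪' _ hpm' hδm
  obtain ⟨b, hb, hbb⟩ := coeff_key W hΔ0 hM hg B h ℓ₀ hℓ₀ hℓM hℓΔ hp' hp2' hpℓ'
    (Ideal.Quotient.mk 𝔪')
  have e1 : b = a := Subtype.ext (by rw [hb, ha])
  rw [e1, ← map_intCast (Ideal.Quotient.mk 𝔪'), ← sub_eq_zero, ← map_sub,
    Ideal.Quotient.eq_zero_iff_mem] at hbb
  exact hδm' hbb

end Fermat.Agent.S58
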