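import Fermat.Agent.S58.Cmp.Core
import Fermat.Agent.S29.FDMain
import Fermat.Agent.S31.TraceCongr
import Fermat.Agent.S31.Bridge
import Fermat.Prelude.Def_GaloisRep_LocalConditions

/-!
# S58, chapter CMP: comparison of a `lam`-adic representation with the torsion of `E`
-/

set_option autoImplicit false

namespace Fermat.Agent.S58

open WeierstrassCurve WeierstrassCurve.Affine Polynomial

/-- a `GaloisRepAdic` in matrix form (no irreducibility hypothesis). -/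
theorem exists_matrix_form' {T : Type} [CommRing T] [IsLocalRing T] (ρ : GaloisRepAdic T) :
    ∃ M : GQ →* Matrix (Fin 2) (Fin 2) T,
      (∀ σ, (M σ).charpoly = LinearMap.charpoly (ρ.ρ σ)) ∧
      (∀ n : ℕ, ∃ L : IntermediateField ℚ Qb, FiniteDimensional ℚ L ∧
        ∀ σ : GQ, (∀ x ∈ L, σ x = x) → ∀ i j, (M σ - 1) i j ∈ IsLocalRing.maximalIdeal T ^ n) := by
  classical
  let b : Module.Basis (Fin 2) T ρ.V := Module.finBasisOfFinrankEq T ρ.V ρ.finrank_eq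
  let M : GQ →* Matrix (Fin 2) (Fin 2) T :=
    ((LinearMap.toMatrixAlgEquiv b : Module.End T ρ.V ≃ₐ[T] Matrix (Fin 2) (Fin 2) T) :
      Module.End T ρ.V →* Matrix (Fin 2) (Fin 2) T).comp ρ.ρ
  have hM : ∀ σ, M σ = LinearMap.toMatrix b b (ρ.ρ σ) := fun σ => rfl
  refine ⟨M, ?_, ?_⟩
  · intro σ
    rw [hM]
    exact LinearMap.charpoly_toMatrix (ρ.ρ σ) b
  · intro n
    obtain ⟨L, hL, h⟩ := ρ.isAdicContinuous n
    refine ⟨L, hL, fun σ hσ i j => ?_⟩
    have h1 : (M σ - 1) i j = b.repr (ρ.ρ σ (b j) - b j) i := by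
      rw [Matrix.sub_apply, hM, LinearMap.toMatrix_apply, map_sub, Finsupp.sub_apply,
        Module.Basis.repr_self, Matrix.one_apply, Finsupp.single_apply]
      simp only [eq_comm]
    rw [h1]
    exact S31.repr_mem_of_mem_smul_top b _ (h σ hσ (b j)) i

/-- trace and determinant from the characteristic polynomial. -/
theorem trace_det_of_charpoly {T : Type*} [CommRing T] [Nontrivial T]
    (X' : Matrix (Fin 2) (Fin 2) T) {t d : T} (h : X'.charpoly = X ^ 2 - C t * X + C d) :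
    X'.trace = t ∧ X'.det = d := by
  rw [Matrix.charpoly_fin_two] at h
  constructor
  · have h2 := congrArg (fun P => P.coeff 1) h
    simp only [coeff_add, coeff_sub, coeff_X_pow, coeff_C_mul, coeff_X_one, coeff_C] at h2
    norm_num at h2
    exact h2
  · have h2 := congrArg (fun P => P.coeff 0) h
    simp only [coeff_add, coeff_sub, coeff_X_pow, coeff_C_mul, coeff_X_zero, coeff_C] at h2
    norm_num at h2
    exact h2

/-- the determinant analogue of `S31.trace_congr`. -/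
theorem det_congr {T : Type*} [CommRing T] (I : Ideal T) (M : GQ →* Matrix (Fin 2) (Fin 2) T)
    (L : IntermediateField ℚ Qb)
    (hL : ∀ σ : GQ, (∀ x ∈ L, σ x = x) → ∀ i j, (M σ - 1) i j ∈ I)
    (σ g : GQ) (b ℓ : ℕ) (hdet : (M σ).det = (ℓ : T)) (hσ : ∀ x ∈ L, (σ ^ b) x = g x) :
    (M g).det - (ℓ : T) ^ b ∈ I := by
  set h : GQ := (σ ^ b)⁻¹ * g with hh
  have hfix : ∀ x ∈ L, h x = x := by
    intro x hx
    rw [hh, AlgEquiv.mul_apply, ← hσ x hx]
    exact (σ ^ b).symm_apply_apply x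
  have hg : g = σ ^ b * h := by rw [hh, mul_inv_cancel_left]
  have hE := hL h hfix
  have h1 : (M h).det - 1 ∈ I := by
    have e : (M h).det - 1 = (M h - 1) 0 0 + (M h - 1) 1 1 + (M h - 1) 0 0 * (M h - 1) 1 1
        - (M h - 1) 0 1 * (M h - 1) 1 0 := by
      rw [Matrix.det_fin_two]
      simp only [Matrix.sub_apply, Matrix.one_apply_eq, Matrix.one_apply_ne (show (0 : Fin 2) ≠ 1 by decide),
        Matrix.one_apply_ne (show (1 : Fin 2) ≠ 0 by decide)]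
      ring
    rw [e]
    exact I.sub_mem (I.add_mem (I.add_mem (hE 0 0) (hE 1 1)) (I.mul_mem_left _ (hE 1 1)))
      (I.mul_mem_left _ (hE 1 0))
  have h2 : (M g).det - (ℓ : T) ^ b = (ℓ : T) ^ b * ((M h).det - 1) := by
    rw [hg, map_mul, Matrix.det_mul, map_pow, Matrix.det_pow, hdet]
    ring
  rw [h2]
  exact I.mul_mem_left _ h1

/-- COMPARE. `ρ` a `lam`-adic representation with `charpoly ρ(Frob_ℓ) = X² - a_ℓ(W) X + ℓ` for almost all `ℓ`.  If `g₀` satisfies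
`g₀² - t₀ g₀ + d₀ = 0` on all `E[lam ^ n]` and acts on `μ_{lam ^ n}` through `d₀`, then
`charpoly ρ(g₀) = X² - t₀ X + d₀`. -/
theorem compare (W : WeierstrassCurve ℤ) (hΔ0 : W.Δ ≠ 0) {lam : ℕ} (hlam : lam.Prime) (hlam2 : lam ≠ 2)
    (O : Type) [CommRing O] [IsDomain O] [IsDiscreteValuationRing O]
    (hlamO : (lam : O) ∈ IsLocalRing.maximalIdeal O) (ρ : GaloisRepAdic O) (B : Finset ℕ)
    (hρ : ∀ ℓ : ℕ, ℓ.Prime → ℓ ∉ B → ∀ A : ValuationSubring Qb, A.LiesOverPrime ℓ →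
      ∀ σ : GQ, A.IsFrobeniusAt σ ℓ →
        LinearMap.charpoly (ρ.ρ σ) = X ^ 2 - C ((W.apOfModel ℓ : ℤ) : O) * X + C (ℓ : O))
    (g₀ : GQ) (t₀ : ℤ) (d₀ : ℕ)
    (hrel : ∀ (n : ℕ) (Q : EP W), (lam ^ n) • Q = 0 →
      g₀ • g₀ • Q - t₀ • g₀ • Q + (d₀ : ℤ) • Q = 0)
    (hcyc : ∀ (n : ℕ) (ζ : Qb), ζ ^ (lam ^ n) = 1 → g₀ ζ = ζ ^ d₀) :
    LinearMap.charpoly (ρ.ρ g₀) = X ^ 2 - C (t₀ : O) * X + C (d₀ : O) := by
  classical
  obtain ⟨M, hMc, hMl⟩ := exists_matrix_form' ρ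
  have hmain : ∀ n : ℕ, (M g₀).trace - (t₀ : O) ∈ IsLocalRing.maximalIdeal O ^ n ∧
      (M g₀).det - (d₀ : O) ∈ IsLocalRing.maximalIdeal O ^ n := by
    intro n
    obtain ⟨L1, hL1, h1⟩ := hMl n
    obtain ⟨L2, hL2, h2⟩ := exists_level W hΔ0 (m := lam ^ n) (pow_ne_zero n hlam.ne_zero)
    have hfd : FiniteDimensional ℚ (L1 ⊔ L2 : IntermediateField ℚ Qb) :=
      IntermediateField.finiteDimensional_sup L1 L2
    obtain ⟨ℓ, hℓ, hℓS, A, hA, σ, hσ, b, hb⟩ := S29.frobenius_density_lite (L1 ⊔ L2)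
      (B ∪ {lam} ∪ W.Δ.natAbs.primeFactors) g₀
    have hℓB : ℓ ∉ B := fun h => hℓS (by simp [h])
    have hℓlam : ℓ ≠ lam := fun h => hℓS (by simp [h])
    have hℓΔ : ¬ (ℓ : ℤ) ∣ W.Δ := by
      intro h
      apply hℓS
      simp only [Finset.mem_union, Nat.mem_primeFactors]
      refine Or.inr ⟨hℓ, Int.natCast_dvd.mp h, by simpa using hΔ0⟩
    have hfix : ∀ x ∈ L2, (g₀⁻¹ * σ ^ b) x = x := by
      intro x hx
      rw [AlgEquiv.mul_apply, hb x ((le_sup_right : L2 ≤ L1 ⊔ L2) hx)]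
      exact g₀.symm_apply_apply x
    have hsb : σ ^ b = g₀ * (g₀⁻¹ * σ ^ b) := by rw [mul_inv_cancel_left]
    obtain ⟨c1, c2⟩ := core W hΔ0 hlam hlam2 n g₀ t₀ d₀ (hrel n) (hcyc n) hℓ hℓΔ hℓlam A hA σ hσ b
      (fun Q hQ => by
        rw [hsb, mul_smul, (h2 _ hfix).1 Q hQ])
      (fun ζ hζ => by
        rw [hsb, AlgEquiv.mul_apply, (h2 _ hfix).2 ζ hζ])
    obtain ⟨htr, hdet⟩ := trace_det_of_charpoly (M σ) ((hMc σ).trans (hρ ℓ hℓ hℓB A hA σ hσ))
    have hb1 : ∀ x ∈ L1, (σ ^ b) x = g₀ x := fun x hx => hb x ((le_sup_left : L1 ≤ L1 ⊔ L2) hx)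
    have t1 := S31.trace_congr (IsLocalRing.maximalIdeal O ^ n) M L1 h1 σ g₀ b ℓ hdet hb1
    have t2 := det_congr (IsLocalRing.maximalIdeal O ^ n) M L1 h1 σ g₀ b ℓ hdet hb1
    have hcast : ∀ z : ℤ, ((lam ^ n : ℕ) : ℤ) ∣ z → (z : O) ∈ IsLocalRing.maximalIdeal O ^ n := by
      rintro z ⟨c, rfl⟩
      push_cast
      exact Ideal.mul_mem_right _ _ (Ideal.pow_mem_pow hlamO n)
    constructor
    · have e := hcast _ c1
      rw [htr] at t1
      have e2 : S31.dseq ((W.apOfModel ℓ : ℤ) : O) ℓ b = ((S31.dseq (W.apOfModel ℓ) ℓ b : ℤ) : O) := by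
        have := S31.map_dseq (Int.castRingHom O) (W.apOfModel ℓ) ℓ b
        simpa using this.symm
      rw [e2] at t1
      have := Ideal.add_mem _ t1 e
      push_cast at this
      simpa using this
    · have e := hcast _ c2
      have := Ideal.add_mem _ t2 e
      push_cast at this
      simpa using this
  have hkrull : ∀ z : O, (∀ n : ℕ, z ∈ IsLocalRing.maximalIdeal O ^ n) → z = 0 := by
    intro z hz
    have := Ideal.iInf_pow_eq_bot_of_isLocalRing (IsLocalRing.maximalIdeal O)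
      (Ideal.IsPrime.ne_top inferInstance)
    have h3 : z ∈ (⨅ i : ℕ, IsLocalRing.maximalIdeal O ^ i) := by
      rw [Ideal.mem_iInf]
      exact hz
    rw [this] at h3
    exact (Submodule.mem_bot O).mp h3
  have e1 : (M g₀).trace = (t₀ : O) := sub_eq_zero.mp (hkrull _ fun n => (hmain n).1)
  have e2 : (M g₀).det = (d₀ : O) := sub_eq_zero.mp (hkrull _ fun n => (hmain n).2)
  rw [← hMc, Matrix.charpoly_fin_two, e1, e2]

end Fermat.Agent.S58
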