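import Fermat.Agent.S58.EC.FrobRel
import Fermat.Agent.S58.EC.Tors
import Fermat.Agent.S31.Dickson
import Fermat.Agent.S31.RootsOfUnity

/-!
# S58, chapter CMP: the E-side core of the comparison argument
-/

set_option autoImplicit false

namespace Fermat.Agent.S58

open WeierstrassCurve WeierstrassCurve.Affine Fermat.Agent.S31

/-- a quadratic relation for `σ` on a stable subgroup gives the Dickson relation for `σ ^ b`. -/
theorem rel_pow {X G : Type*} [AddCommGroup X] [Group G] [DistribMulAction G X]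
    (T : AddSubgroup X) (σ : G) (hT : ∀ Q ∈ T, σ • Q ∈ T) (a : ℤ) (ℓ : ℕ)
    (h : ∀ Q ∈ T, σ • σ • Q - a • σ • Q + (ℓ : ℤ) • Q = 0) (b : ℕ) (Q : X) (hQ : Q ∈ T) :
    (σ ^ b) • (σ ^ b) • Q - dseq a ℓ b • (σ ^ b) • Q + ((ℓ : ℤ) ^ b) • Q = 0 := by
  let x : Module.End ℤ T :=
    (((DistribSMul.toAddMonoidHom X σ).comp T.subtype).codRestrict T
      (fun Q => hT Q.1 Q.2)).toIntLinearMap
  have hx : ∀ Q : T, ((x Q : T) : X) = σ • (Q : X) := fun Q => rfl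
  have hxb : ∀ (b : ℕ) (Q : T), (((x ^ b) Q : T) : X) = (σ ^ b) • (Q : X) := by
    intro b
    induction b with
    | zero => intro Q; simp
    | succ b ih =>
      intro Q
      rw [pow_succ, Module.End.mul_apply, ih, hx, pow_succ, mul_smul]
  have hrel : x * x - (a : Module.End ℤ T) * x + ((ℓ : ℕ) : Module.End ℤ T) = 0 := by
    ext Q
    have := h Q.1 Q.2
    simp only [LinearMap.add_apply, LinearMap.sub_apply, Module.End.mul_apply,
      Module.End.intCast_apply, Module.End.natCast_apply, LinearMap.zero_apply,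
      AddSubgroup.coe_add, AddSubgroup.coe_sub, AddSubgroup.coe_zsmul, AddSubgroup.coe_nsmul,
      hx, ZeroMemClass.coe_zero]
    rw [← this, natCast_zsmul]
  have key := dseq_relation x (a : Module.End ℤ T) ℓ b (Int.cast_commute a x) hrel
  have hd : dseq (a : Module.End ℤ T) ℓ b = ((dseq a ℓ b : ℤ) : Module.End ℤ T) := by
    have := map_dseq (Int.castRingHom (Module.End ℤ T)) a ℓ b
    simpa using this.symm
  rw [hd] at key
  have key2 := congrArg (fun f : Module.End ℤ T => ((f ⟨Q, hQ⟩ : T) : X)) key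
  simp only [LinearMap.add_apply, LinearMap.sub_apply, Module.End.mul_apply,
    Module.End.intCast_apply, LinearMap.zero_apply,
    AddSubgroup.coe_add, AddSubgroup.coe_sub, AddSubgroup.coe_zsmul,
    hxb, ZeroMemClass.coe_zero] at key2
  rw [← key2]
  congr 1
  have : ((ℓ : Module.End ℤ T) ^ b) = (((ℓ : ℤ) ^ b : ℤ) : Module.End ℤ T) := by
    push_cast
    rfl
  rw [this, Module.End.intCast_apply, AddSubgroup.coe_zsmul]

/-- If `g₀` satisfies `g₀² - t₀ g₀ + d₀ = 0` on `E[m]` (`m = lam ^ n`, `lam` odd) and acts on `μ_m` through `d₀`, and `g₀`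
coincides on `E[m]`, `μ_m` with the `b`-th power of a Frobenius lift at a good prime `ℓ ≠ lam`, then
`D_b(a_ℓ, ℓ) ≡ t₀` and `ℓ ^ b ≡ d₀` modulo `m`. -/
theorem core (W : WeierstrassCurve ℤ) (hΔ0 : W.Δ ≠ 0) {lam : ℕ} (hlam : lam.Prime) (hlam2 : lam ≠ 2)
    (n : ℕ) (g₀ : GQ) (t₀ : ℤ) (d₀ : ℕ)
    (hrel : ∀ Q : EP W, (lam ^ n) • Q = 0 → g₀ • g₀ • Q - t₀ • g₀ • Q + (d₀ : ℤ) • Q = 0)
    (hcyc : ∀ ζ : Qb, ζ ^ (lam ^ n) = 1 → g₀ ζ = ζ ^ d₀)
    {ℓ : ℕ} (hℓ : ℓ.Prime) (hℓΔ : ¬ (ℓ : ℤ) ∣ W.Δ) (hℓlam : ℓ ≠ lam)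
    (A : ValuationSubring Qb) (hA : A.LiesOverPrime ℓ) (σ : GQ) (hσ : A.IsFrobeniusAt σ ℓ) (b : ℕ)
    (hb : ∀ Q : EP W, (lam ^ n) • Q = 0 → (σ ^ b) • Q = g₀ • Q)
    (hb' : ∀ ζ : Qb, ζ ^ (lam ^ n) = 1 → (σ ^ b) ζ = g₀ ζ) :
    ((lam ^ n : ℕ) : ℤ) ∣ dseq (W.apOfModel ℓ) ℓ b - t₀ ∧ ((lam ^ n : ℕ) : ℤ) ∣ (ℓ : ℤ) ^ b - d₀ := by
  classical
  set m : ℕ := lam ^ n with hm
  have hpos : 0 < m := pow_pos hlam.pos n
  have hnd : ¬ ℓ ∣ m := fun hd =>
    hℓlam ((Nat.prime_dvd_prime_iff_eq hℓ hlam).mp (hℓ.dvd_of_dvd_pow hd))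
  have hodd : Odd m := (hlam.odd_of_ne_two hlam2).pow
  -- the cyclotomic part
  have h2 : ((m : ℕ) : ℤ) ∣ (ℓ : ℤ) ^ b - d₀ := by
    have : NeZero m := ⟨hpos.ne'⟩
    have : NeZero ((m : ℕ) : Qb) := ⟨Nat.cast_ne_zero.mpr hpos.ne'⟩
    obtain ⟨ζ, hζ⟩ := HasEnoughRootsOfUnity.exists_primitiveRoot Qb m
    have hζ1 : ζ ^ m = 1 := hζ.pow_eq_one
    have e1 := hb' ζ hζ1
    rw [frob_pow_apply_root hℓ hA hσ hnd hζ1, hcyc ζ hζ1] at e1
    have hmod : ∀ k : ℕ, ζ ^ k = ζ ^ (k % m) := by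
      intro k
      conv_lhs => rw [← Nat.div_add_mod k m, pow_add, pow_mul, hζ1, one_pow, one_mul]
    rw [hmod (ℓ ^ b), hmod d₀] at e1
    have h3 := hζ.pow_inj (Nat.mod_lt _ hpos) (Nat.mod_lt _ hpos) e1
    have h4 : ((ℓ ^ b : ℕ) : ℤ) ≡ ((d₀ : ℕ) : ℤ) [ZMOD (m : ℕ)] := (Int.natCast_modEq_iff).mpr h3
    have := h4.symm.dvd
    simpa using this
  refine ⟨?_, h2⟩
  -- the torsion subgroup
  let T : AddSubgroup (EP W) := (nsmulAddMonoidHom (α := EP W) m).ker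
  have hTmem : ∀ Q : EP W, Q ∈ T ↔ m • Q = 0 := fun Q => Iff.rfl
  have hcomm : ∀ (τ : GQ) (k : ℤ) (Q : EP W), τ • (k • Q) = k • (τ • Q) := fun τ k Q =>
    map_zsmul (DistribSMul.toAddMonoidHom (EP W) τ) k Q
  have hcomm' : ∀ (τ : GQ) (k : ℕ) (Q : EP W), τ • (k • Q) = k • (τ • Q) := fun τ k Q =>
    map_nsmul (DistribSMul.toAddMonoidHom (EP W) τ) k Q
  have hstab : ∀ (τ : GQ) (Q : EP W), Q ∈ T → τ • Q ∈ T := by
    intro τ Q hQ
    rw [hTmem] at hQ ⊢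
    rw [← hcomm', hQ]
    exact map_zero (DistribSMul.toAddMonoidHom (EP W) τ)
  obtain ⟨Q, hQ⟩ := exists_order W hΔ0 hlam n
  have hQT : m • Q = 0 := by
    rw [hm, ← hQ]
    exact addOrderOf_nsmul_eq_zero Q
  have k1 := rel_pow T σ (hstab σ) (W.apOfModel ℓ) ℓ
    (fun P hP => frob_rel W hℓ hℓΔ A hA σ hσ hodd hnd P hP) b Q hQT
  have hgT : m • (g₀ • Q) = 0 := hstab g₀ Q hQT
  rw [hb Q hQT, hb _ hgT] at k1
  have k2 := hrel Q hQT
  have k3 : (dseq (W.apOfModel ℓ) ℓ b - t₀) • g₀ • Q = ((ℓ : ℤ) ^ b - d₀) • Q := by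
    rw [sub_smul, sub_smul]
    have := k1.trans k2.symm
    have e : ∀ u v w u' v' : EP W, u - v + w = u - u' + v' → v - u' = w - v' := by
      intro u v w u' v' h
      have h1 : w - v = v' - u' := by
        have := congrArg (fun z => z - u) h
        have a1 : u - v + w - u = w - v := by abel
        have a2 : u - u' + v' - u = v' - u' := by abel
        rwa [a1, a2] at this
      have : v - u' = w - v' := by
        have a3 : v - u' = (v' - u') - (w - v) + (w - v') := by abel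
        rw [a3, h1, sub_self, zero_add]
      exact this
    exact e _ _ _ _ _ this
  have k4 : ((ℓ : ℤ) ^ b - d₀) • Q = 0 := by
    obtain ⟨c, hc⟩ := h2
    rw [hc, mul_comm, mul_smul, natCast_zsmul, hQT, zsmul_zero]
  rw [k4] at k3
  have hord : addOrderOf (g₀ • Q) = m := by
    rw [hm, ← hQ]
    exact addOrderOf_injective (DistribSMul.toAddMonoidHom (EP W) g₀)
      (MulAction.injective g₀) Q
  rw [← hord]
  exact addOrderOf_dvd_iff_zsmul_eq_zero.mpr k3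

end Fermat.Agent.S58
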